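import Mathlib

/-!
# S17-WMWK : an open character `G_K' → ℤ/2` is a Kummer character `τ β = ± β`, `β ^ 2 ∈ K'`
-/

set_option autoImplicit false

namespace Fermat.Agent.S17.WMWK

section
variable {Ω : Type*} [Field Ω] [Algebra ℚ Ω] [IsAlgClosure ℚ Ω]

theorem quad_isGalois : IsGalois ℚ Ω := by
  have : Algebra.IsAlgebraic ℚ Ω := IsAlgClosure.isAlgebraic
  have : IsAlgClosed Ω := IsAlgClosure.isAlgClosed ℚ
  have : Normal ℚ Ω := normal_iff.mpr fun x =>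
    ⟨(Algebra.IsAlgebraic.isAlgebraic x).isIntegral, IsAlgClosed.splits _⟩
  exact ⟨⟩

theorem exists_sqrt_of_character_aux (K' : IntermediateField ℚ Ω) [FiniteDimensional ℚ K'] (ψ : (Ω ≃ₐ[ℚ] Ω) → ZMod 2)
    (hψ : ∀ σ ∈ K'.fixingSubgroup, ∀ τ ∈ K'.fixingSubgroup, ψ (σ * τ) = ψ σ + ψ τ)
    (hopen : ∃ L : IntermediateField ℚ Ω, FiniteDimensional ℚ L ∧
      ∀ τ ∈ L.fixingSubgroup, ψ τ = 0) :
    ∃ β : Ω, β ≠ 0 ∧ β ^ 2 ∈ K' ∧ ∀ τ ∈ K'.fixingSubgroup,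
      (ψ τ = 0 → τ β = β) ∧ (ψ τ ≠ 0 → τ β = -β) := by
  have hgal : IsGalois ℚ Ω := quad_isGalois
  have hchar : CharZero Ω := algebraRat.charZero Ω
  have h1 : ψ 1 = 0 := by
    have := hψ 1 (one_mem _) 1 (one_mem _)
    rw [one_mul] at this
    exact (add_eq_left.mp this.symm)
  have hinv : ∀ σ ∈ K'.fixingSubgroup, ψ σ⁻¹ = ψ σ := by
    intro σ hσ
    have := hψ σ hσ σ⁻¹ (inv_mem hσ)
    rw [mul_inv_cancel, h1] at this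
    have h2 : ∀ a b : ZMod 2, 0 = a + b → b = a := by decide
    exact h2 _ _ this
  have hK' : ∀ x : Ω, (∀ τ ∈ K'.fixingSubgroup, τ x = x) → x ∈ K' := by
    intro x hx
    rw [← InfiniteGalois.fixedField_fixingSubgroup K']
    intro τ
    exact hx τ τ.2
  by_cases htriv : ∀ σ ∈ K'.fixingSubgroup, ψ σ = 0
  · exact ⟨1, one_ne_zero, by simp, fun τ hτ => ⟨fun _ => map_one τ, fun h => absurd (htriv τ hτ) h⟩⟩
  push Not at htriv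
  obtain ⟨σ₀, hσ₀, hσ₀ψ⟩ := htriv
  obtain ⟨L, hLfin, hL⟩ := hopen
  let H : Subgroup (Ω ≃ₐ[ℚ] Ω) :=
    { carrier := {τ | τ ∈ K'.fixingSubgroup ∧ ψ τ = 0}
      one_mem' := ⟨one_mem _, h1⟩
      mul_mem' := fun {a b} ha hb => ⟨mul_mem ha.1 hb.1, by rw [hψ a ha.1 b hb.1, ha.2, hb.2, add_zero]⟩
      inv_mem' := fun {a} ha => ⟨inv_mem ha.1, by rw [hinv a ha.1, ha.2]⟩ }
  have hle : (K' ⊔ L).fixingSubgroup ≤ H := by
    intro τ hτ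
    rw [IntermediateField.fixingSubgroup_sup] at hτ
    exact ⟨hτ.1, hL τ hτ.2⟩
  have hfin : FiniteDimensional ℚ ↥(K' ⊔ L) := IntermediateField.finiteDimensional_sup K' L
  have hopenH : IsOpen (H : Set (Ω ≃ₐ[ℚ] Ω)) :=
    Subgroup.isOpen_mono hle (K' ⊔ L).fixingSubgroup_isOpen
  have hclosed : IsClosed (H : Set (Ω ≃ₐ[ℚ] Ω)) := Subgroup.isClosed_of_isOpen H hopenH
  have hfix : (IntermediateField.fixedField H).fixingSubgroup = H :=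
    InfiniteGalois.fixingSubgroup_fixedField ⟨H, hclosed⟩
  have hex : ∃ x ∈ IntermediateField.fixedField H, σ₀ x ≠ x := by
    by_contra hcon
    push Not at hcon
    have : σ₀ ∈ (IntermediateField.fixedField H).fixingSubgroup := by
      rw [IntermediateField.mem_fixingSubgroup_iff]
      exact hcon
    rw [hfix] at this
    exact hσ₀ψ this.2
  obtain ⟨x, hx, hxσ⟩ := hex
  have hxH : ∀ τ ∈ H, τ x = x := fun τ hτ => hx ⟨τ, hτ⟩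
  have h01 : ∀ a : ZMod 2, a ≠ 0 → a = 1 := by decide
  have h11 : (1 : ZMod 2) + 1 = 0 := by decide
  have hσ₀1 : ψ σ₀ = 1 := h01 _ hσ₀ψ
  have hβH : ∀ τ ∈ H, τ (x - σ₀ x) = x - σ₀ x := by
    intro τ hτ
    have hconj : σ₀⁻¹ * τ * σ₀ ∈ H := by
      refine ⟨mul_mem (mul_mem (inv_mem hσ₀) hτ.1) hσ₀, ?_⟩
      rw [hψ _ (mul_mem (inv_mem hσ₀) hτ.1) _ hσ₀, hψ _ (inv_mem hσ₀) _ hτ.1, hinv σ₀ hσ₀, hτ.2,
        hσ₀1, add_zero, h11]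
    have e1 := hxH _ hconj
    have e2 : τ (σ₀ x) = σ₀ x := by
      have : σ₀ ((σ₀⁻¹ * τ * σ₀) x) = τ (σ₀ x) := by
        simp [AlgEquiv.mul_apply]
      rw [← this, e1]
    rw [map_sub, hxH τ hτ, e2]
  have hβσ : σ₀ (x - σ₀ x) = -(x - σ₀ x) := by
    have hsq : σ₀ * σ₀ ∈ H := ⟨mul_mem hσ₀ hσ₀, by rw [hψ _ hσ₀ _ hσ₀, hσ₀1, h11]⟩
    have e1 : σ₀ (σ₀ x) = x := hxH _ hsq
    rw [map_sub, e1]
    ring
  have hact : ∀ τ ∈ K'.fixingSubgroup,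
      (ψ τ = 0 → τ (x - σ₀ x) = x - σ₀ x) ∧ (ψ τ ≠ 0 → τ (x - σ₀ x) = -(x - σ₀ x)) := by
    intro τ hτ
    refine ⟨fun h => hβH τ ⟨hτ, h⟩, fun h => ?_⟩
    have hmem : σ₀⁻¹ * τ ∈ H := by
      refine ⟨mul_mem (inv_mem hσ₀) hτ, ?_⟩
      rw [hψ _ (inv_mem hσ₀) _ hτ, hinv σ₀ hσ₀, hσ₀1, h01 _ h, h11]
    have e1 := hβH _ hmem
    have e2 : τ (x - σ₀ x) = σ₀ ((σ₀⁻¹ * τ) (x - σ₀ x)) := by
      simp [AlgEquiv.mul_apply]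
    rw [e2, e1, hβσ]
  refine ⟨x - σ₀ x, sub_ne_zero.mpr (Ne.symm hxσ), hK' _ (fun τ hτ => ?_), hact⟩
  by_cases h : ψ τ = 0
  · rw [map_pow, (hact τ hτ).1 h]
  · rw [map_pow, (hact τ hτ).2 h, neg_sq]

end

theorem exists_sqrt_of_character_alg [alg : Algebra ℚ (AlgebraicClosure ℚ)]
    (K' : IntermediateField ℚ (AlgebraicClosure ℚ)) [FiniteDimensional ℚ K']
    (ψ : (AlgebraicClosure ℚ ≃ₐ[ℚ] AlgebraicClosure ℚ) → ZMod 2)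
    (hψ : ∀ σ ∈ K'.fixingSubgroup, ∀ τ ∈ K'.fixingSubgroup, ψ (σ * τ) = ψ σ + ψ τ)
    (hopen : ∃ L : IntermediateField ℚ (AlgebraicClosure ℚ), FiniteDimensional ℚ L ∧
      ∀ τ ∈ L.fixingSubgroup, ψ τ = 0) :
    ∃ β : AlgebraicClosure ℚ, β ≠ 0 ∧ β ^ 2 ∈ K' ∧ ∀ τ ∈ K'.fixingSubgroup,
      (ψ τ = 0 → τ β = β) ∧ (ψ τ ≠ 0 → τ β = -β) := by
  obtain rfl : alg = AlgebraicClosure.instAlgebra ℚ := Subsingleton.elim _ _
  exact exists_sqrt_of_character_aux K' ψ hψ hopen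

/-- an open character `ψ : G_K' → ℤ/2` is the Kummer character of some `β` with `β ^ 2 ∈ K'`. -/
theorem exists_sqrt_of_character
    (K' : IntermediateField ℚ (AlgebraicClosure ℚ)) [FiniteDimensional ℚ K']
    (ψ : (AlgebraicClosure ℚ ≃ₐ[ℚ] AlgebraicClosure ℚ) → ZMod 2)
    (hψ : ∀ σ ∈ K'.fixingSubgroup, ∀ τ ∈ K'.fixingSubgroup, ψ (σ * τ) = ψ σ + ψ τ)
    (hopen : ∃ L : IntermediateField ℚ (AlgebraicClosure ℚ), FiniteDimensional ℚ L ∧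
      ∀ τ ∈ L.fixingSubgroup, ψ τ = 0) :
    ∃ β : AlgebraicClosure ℚ, β ≠ 0 ∧ β ^ 2 ∈ K' ∧ ∀ τ ∈ K'.fixingSubgroup,
      (ψ τ = 0 → τ β = β) ∧ (ψ τ ≠ 0 → τ β = -β) :=
  exists_sqrt_of_character_alg K' ψ hψ hopen

end Fermat.Agent.S17.WMWK
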