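import Fermat.Agent.S55.DIC.Unram
import Fermat.Agent.S55.DIC.ClT
import Fermat.Agent.S55.DIC.TUnits

/-!
# S17-WMWK : `K(T,n)/Kˣⁿ` is finite; finitely many places above a finite set of primes
-/

set_option autoImplicit false

open NumberField IsDedekindDomain

namespace Fermat.Agent.S17.WMWK

open Fermat.Agent.S55.DIC

variable {K : Type*} [Field K] [NumberField K]

theorem finite_selT_quot (T : Finset (HeightOneSpectrum (𝓞 K))) (n : ℕ) (hn : 0 < n) :
    Finite (selT (T : Set (HeightOneSpectrum (𝓞 K))) n ⧸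
        ((powMonoidHom n : Kˣ →* Kˣ).range.subgroupOf (selT (T : Set (HeightOneSpectrum (𝓞 K))) n))) := by
  apply Nat.finite_of_card_ne_zero
  rw [card_selT_quot T n hn]
  have h1 := finite_tUnit_quot_pow (F := K) T n hn.ne'
  have h2 : Finite {c : ClT (T : Set (HeightOneSpectrum (𝓞 K))) // n • c = 0} := inferInstance
  have h3 : Nonempty {c : ClT (T : Set (HeightOneSpectrum (𝓞 K))) // n • c = 0} := ⟨⟨0, by simp⟩⟩
  exact mul_ne_zero Nat.card_pos.ne' Nat.card_pos.ne'

/-- finitely many representatives of `K(T,n)` modulo `n`-th powers. -/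
theorem exists_finset_reps (T : Finset (HeightOneSpectrum (𝓞 K))) (n : ℕ) (hn : 0 < n) :
    ∃ R : Finset Kˣ, ∀ x ∈ selT (T : Set (HeightOneSpectrum (𝓞 K))) n,
      ∃ r ∈ R, ∃ y : Kˣ, x = r * y ^ n := by
  classical
  have := finite_selT_quot T n hn
  have : Fintype (selT (T : Set (HeightOneSpectrum (𝓞 K))) n ⧸
        ((powMonoidHom n : Kˣ →* Kˣ).range.subgroupOf
          (selT (T : Set (HeightOneSpectrum (𝓞 K))) n))) := Fintype.ofFinite _
  refine ⟨Finset.univ.image (fun c : (selT (T : Set (HeightOneSpectrum (𝓞 K))) n ⧸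
        ((powMonoidHom n : Kˣ →* Kˣ).range.subgroupOf
          (selT (T : Set (HeightOneSpectrum (𝓞 K))) n))) => ((Quotient.out c : selT _ n) : Kˣ)), ?_⟩
  intro x hx
  refine ⟨_, Finset.mem_image.mpr ⟨QuotientGroup.mk ⟨x, hx⟩, Finset.mem_univ _, rfl⟩, ?_⟩
  have h1 : (QuotientGroup.mk (Quotient.out (QuotientGroup.mk ⟨x, hx⟩ :
      (selT (T : Set (HeightOneSpectrum (𝓞 K))) n ⧸
        ((powMonoidHom n : Kˣ →* Kˣ).range.subgroupOf
          (selT (T : Set (HeightOneSpectrum (𝓞 K))) n))))) : (selT (T : Set (HeightOneSpectrum (𝓞 K))) n ⧸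
        ((powMonoidHom n : Kˣ →* Kˣ).range.subgroupOf
          (selT (T : Set (HeightOneSpectrum (𝓞 K))) n)))) = QuotientGroup.mk ⟨x, hx⟩ :=
    Quotient.out_eq _
  rw [QuotientGroup.eq, Subgroup.mem_subgroupOf] at h1
  obtain ⟨y, hy⟩ := h1
  refine ⟨y, ?_⟩
  simp only [powMonoidHom_apply, Subgroup.coe_mul, Subgroup.coe_inv] at hy
  rw [hy]
  simp

/-- the places of `K` above a finite set of primes. -/
theorem finite_not_outsideS (S : Finset Nat.Primes) :
    {v : HeightOneSpectrum (𝓞 K) | ¬ OutsideS S v}.Finite := by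
  have hsub : {v : HeightOneSpectrum (𝓞 K) | ¬ OutsideS S v} ⊆
      ⋃ ℓ ∈ S, {v : HeightOneSpectrum (𝓞 K) | ord v ((((ℓ : Nat.Primes) : ℕ) : K)) ≠ 0} := by
    intro v hv
    simp only [OutsideS, Set.mem_ofPred_eq, not_forall, not_not] at hv
    obtain ⟨ℓ, hℓ, hmem⟩ := hv
    simp only [Set.mem_iUnion]
    refine ⟨ℓ, hℓ, ?_⟩
    have h0 : (((ℓ : Nat.Primes) : ℕ) : 𝓞 K) ≠ 0 := by exact_mod_cast ℓ.2.ne_zero
    have := (ord_pos_iff_mem v h0).mpr hmem
    simp only [map_natCast] at this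
    exact this.ne'
  exact (Set.Finite.biUnion S.finite_toSet (fun ℓ _ => finite_ord_ne_zero _)).subset hsub

end Fermat.Agent.S17.WMWK
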