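import Fermat.Agent.S17.WMWK.Ram
import Fermat.Agent.S17.WMWK.Quad
import Fermat.Agent.S17.WMWK.Sel

/-!
# S17-WMWK : homomorphisms `G_K' → B` (`2 B = 0`), open and trivial on inertia outside `S`,
all factor through one finite level `K''`
-/

set_option autoImplicit false

open NumberField IsDedekindDomain

namespace Fermat.Agent.S17.WMWK

open Fermat.Agent.S55.DIC

/-- characters with values in `ℤ/2`. -/
theorem exists_level_char (K' : IntermediateField ℚ Qb) [FiniteDimensional ℚ K'] (S : Finset ℕ) :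
    ∃ K'' : IntermediateField ℚ Qb, FiniteDimensional ℚ K'' ∧ K' ≤ K'' ∧
      ∀ ψ : GQ → ZMod 2,
        (∀ σ ∈ K'.fixingSubgroup, ∀ τ ∈ K'.fixingSubgroup, ψ (σ * τ) = ψ σ + ψ τ) →
        (∃ L : IntermediateField ℚ Qb, FiniteDimensional ℚ L ∧ ∀ τ ∈ L.fixingSubgroup, ψ τ = 0) →
        (∀ p : ℕ, p.Prime → p ∉ S → ∀ A : ValuationSubring Qb, A.LiesOverPrime p →
          ∀ σ ∈ A.inertiaSubgroupIn ℚ, σ ∈ K'.fixingSubgroup → ψ σ = 0) →
        ∀ τ ∈ K''.fixingSubgroup, ψ τ = 0 := by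
  classical
  have hnf : NumberField K' := unram3_numberField K' inferInstance
  obtain ⟨S₀, hS₀⟩ := exists_finset_isUnramifiedOutside K'
  let S₂ : Finset Nat.Primes := (S.filter Nat.Prime).attach.image
    (fun p => (⟨p.1, (Finset.mem_filter.mp p.2).2⟩ : Nat.Primes))
  let S₁ : Finset Nat.Primes := S₀ ∪ S₂
  have hS₁ : ∀ q : Nat.Primes, q ∉ S₁ → q ∉ S₀ ∧ (q : ℕ) ∉ S := by
    intro q hq
    rw [Finset.mem_union, not_or] at hq
    refine ⟨hq.1, fun h => hq.2 ?_⟩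
    exact Finset.mem_image.mpr ⟨⟨(q : ℕ), Finset.mem_filter.mpr ⟨h, q.2⟩⟩, Finset.mem_attach _ _, rfl⟩
  let T : Finset (HeightOneSpectrum (𝓞 K')) := (finite_not_outsideS (K := K') S₁).toFinset
  have hT : ∀ v : HeightOneSpectrum (𝓞 K'), v ∉ (T : Set (HeightOneSpectrum (𝓞 K'))) →
      OutsideS S₁ v := by
    intro v hv
    rw [Finset.mem_coe, Set.Finite.mem_toFinset, Set.mem_ofPred_eq, not_not] at hv
    exact hv
  obtain ⟨R, hR⟩ := exists_finset_reps T 2 two_pos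
  have hsq : ∀ r : K'ˣ, ∃ s : Qb, s ^ 2 = (((r : K') : Qb)) := fun r =>
    IsAlgClosed.exists_pow_nat_eq _ two_pos
  choose sq hsq using hsq
  let E : IntermediateField ℚ Qb := IntermediateField.adjoin ℚ (↑(R.image sq) : Set Qb)
  have hEfin : FiniteDimensional ℚ E :=
    IntermediateField.finiteDimensional_adjoin (fun x _ => Unram4_isIntegral x)
  refine ⟨K' ⊔ E, IntermediateField.finiteDimensional_sup K' E, le_sup_left, ?_⟩
  intro ψ hψ hopen hunr τ hτ
  obtain ⟨β, hβ0, hβK, hβ⟩ := exists_sqrt_of_character K' ψ hψ hopen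
  have ha : (⟨β ^ 2, hβK⟩ : K') ≠ 0 := by
    intro h
    exact pow_ne_zero 2 hβ0 (congrArg Subtype.val h)
  have hfd : FiniteDimensional ℚ (IntermediateField.adjoin ℚ {β}) :=
    IntermediateField.adjoin.finiteDimensional (Unram4_isIntegral β)
  have hK : (K' ⊔ IntermediateField.adjoin ℚ {β}).IsUnramifiedOutside S₁ := by
    refine ⟨IntermediateField.finiteDimensional_sup _ _, fun q hq A hA σ hσ => ?_⟩
    rw [IntermediateField.fixingSubgroup_sup]
    have hσK := hS₀.2 q (hS₁ q hq).1 A hA hσ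
    exact ⟨hσK, Unram4_mem_fixingSubgroup_adjoin σ β
      ((hβ σ hσK).1 (hunr q q.2 (hS₁ q hq).2 A hA σ hσ hσK))⟩
  have hsel : Units.mk0 (⟨β ^ 2, hβK⟩ : K') ha ∈ selT (T : Set (HeightOneSpectrum (𝓞 K'))) 2 := by
    intro v hv
    exact dvd_ord_of_isUnramifiedOutside S₁ 2 K' ⟨β ^ 2, hβK⟩ ha β rfl hK v (hT v hv)
  obtain ⟨r, hr, y, hry⟩ := hR _ hsel
  have h1 : β ^ 2 = (sq r * ((y : K') : Qb)) ^ 2 := by
    have h2 := congrArg (fun u : K'ˣ => (((u : K') : Qb))) hry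
    simp only [Units.val_mk0, Units.val_mul, Units.val_pow_eq_pow_val, MulMemClass.coe_mul,
      SubmonoidClass.coe_pow] at h2
    rw [mul_pow, hsq, h2]
  have hmem : sq r * ((y : K') : Qb) ∈ K' ⊔ E := by
    refine mul_mem ?_ ((le_sup_left : K' ≤ K' ⊔ E) (y : K').2)
    exact (le_sup_right : E ≤ K' ⊔ E) (IntermediateField.subset_adjoin _ _
      (Finset.mem_coe.mpr (Finset.mem_image_of_mem sq hr)))
  have hβmem : β ∈ K' ⊔ E := by
    rcases sq_eq_sq_iff_eq_or_eq_neg.mp h1 with h | h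
    · rw [h]; exact hmem
    · rw [h]; exact neg_mem hmem
  have hτβ : τ β = β := (IntermediateField.mem_fixingSubgroup_iff _ τ).mp hτ β hβmem
  have hτK : τ ∈ K'.fixingSubgroup := IntermediateField.fixingSubgroup_antitone le_sup_left hτ
  by_contra hne
  have h2 := (hβ τ hτK).2 hne
  rw [hτβ] at h2
  exact hβ0 (self_eq_neg.mp h2)

universe u

/-- **(WMWK)** all maps `c : G_ℚ → B` (`2 B = 0`) which are additive on `G_K'`, locally constant at `1`
and trivial on the inertia groups outside `S` vanish on `G_K''`, for one finite `K''`. -/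
theorem exists_level (K' : IntermediateField ℚ Qb) [FiniteDimensional ℚ K'] (S : Finset ℕ) :
    ∃ K'' : IntermediateField ℚ Qb, FiniteDimensional ℚ K'' ∧ K' ≤ K'' ∧
      ∀ (B : Type u) [AddCommGroup B] (c : GQ → B), (∀ b : B, b + b = 0) →
        (∀ σ ∈ K'.fixingSubgroup, ∀ τ ∈ K'.fixingSubgroup, c (σ * τ) = c σ + c τ) →
        (∃ L : IntermediateField ℚ Qb, FiniteDimensional ℚ L ∧ ∀ τ ∈ L.fixingSubgroup, c τ = 0) →
        (∀ p : ℕ, p.Prime → p ∉ S → ∀ A : ValuationSubring Qb, A.LiesOverPrime p →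
          ∀ σ ∈ A.inertiaSubgroupIn ℚ, σ ∈ K'.fixingSubgroup → c σ = 0) →
        ∀ τ ∈ K''.fixingSubgroup, c τ = 0 := by
  obtain ⟨K'', hfin, hle, h⟩ := exists_level_char K' S
  refine ⟨K'', hfin, hle, ?_⟩
  intro B _ c h2 hc hopen hunr τ hτ
  let _ : Module (ZMod 2) B := AddCommGroup.zmodModule (n := 2) (by
    intro b
    rw [two_nsmul]
    exact h2 b)
  rw [← Module.forall_dual_apply_eq_zero_iff (ZMod 2) (c τ)]
  intro φ
  obtain ⟨L, hL, hL0⟩ := hopen
  exact h (fun σ => φ (c σ)) (fun σ hσ τ hτ => by rw [hc σ hσ τ hτ, map_add])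
    ⟨L, hL, fun τ hτ => by rw [hL0 τ hτ, map_zero]⟩
    (fun p hp hpS A hA σ hσ hσK => by rw [hunr p hp hpS A hA σ hσ hσK, map_zero]) τ hτ

end Fermat.Agent.S17.WMWK
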