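import Fermat.Agent.S55.DIC.Unram

/-!
# S17-WMWK : a number field is unramified outside a finite set of primes
-/

set_option autoImplicit false

open NumberField IsDedekindDomain

namespace Fermat.Agent.S17.WMWK

open Fermat.Agent.S55.DIC

theorem ord_natCast_eq_one_of_not_dvd_discr {F : Type*} [Field F] [NumberField F] {q : ℕ}
    (hq : q.Prime) (hd : ¬ (q : ℤ) ∣ NumberField.discr F) (v : HeightOneSpectrum (𝓞 F))
    (hv : ((q : ℕ) : 𝓞 F) ∈ v.asIdeal) : ord v ((q : ℕ) : F) = 1 := by
  have h1 := (NumberField.not_dvd_discr_iff_forall_mem F (𝓞 F) (Nat.prime_iff_prime_int.mp hq)).mp hd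
    v.asIdeal v.isPrime (by simpa using hv)
  have hq' : Prime (q : ℤ) := Nat.prime_iff_prime_int.mp hq
  have hlo : v.asIdeal.LiesOver (Ideal.span {(q : ℤ)}) :=
    (Ideal.liesOver_span_iff Ideal.IsPrime.ne_top' hq').mpr (by simpa using hv)
  have : Fact q.Prime := ⟨hq⟩
  have h2 : v.asIdeal.ramificationIdx ℤ = 1 := Ideal.ramificationIdx_eq_one_iff.mpr h1
  rw [← un2_ramificationIdx v hq hv, h2]
  rfl

/-- a number field is unramified outside the primes dividing its discriminant. -/
theorem exists_finset_isUnramifiedOutside (F : IntermediateField ℚ Qb) [NumberField F] :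
    ∃ S : Finset Nat.Primes, F.IsUnramifiedOutside S := by
  refine ⟨(NumberField.discr F).natAbs.primeFactors.attach.image
    (fun p => (⟨p.1, Nat.prime_of_mem_primeFactors p.2⟩ : Nat.Primes)), ?_⟩
  rw [isUnramifiedOutside_iff]
  intro q hq v hv
  refine ord_natCast_eq_one_of_not_dvd_discr q.2 ?_ v hv
  intro hdvd
  apply hq
  have hmem : (q : ℕ) ∈ (NumberField.discr F).natAbs.primeFactors := by
    rw [Nat.mem_primeFactors]
    refine ⟨q.2, Int.natCast_dvd.mp hdvd, ?_⟩
    rw [Ne, Int.natAbs_eq_zero]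
    exact NumberField.discr_ne_zero F
  exact Finset.mem_image.mpr ⟨⟨(q : ℕ), hmem⟩, Finset.mem_attach _ _, rfl⟩

end Fermat.Agent.S17.WMWK
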